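import Fermat.Agent.S55.Fc.Mackey.Defs
import Fermat.Agent.S55.Fc.Conj

/-! # S55 F-con 7d: the Shapiro-Mackey square -/

set_option autoImplicit false

noncomputable section

namespace Fermat.Agent.S55

open Representation

variable {k : Type*} [CommRing k] {G D : Type} [Group G] [Group D]
variable {A : Type*} [AddCommGroup A] [Module k A]
variable (U : Subgroup G) (σ : Representation k U A) (f : D →* G)

variable {L : Lev G} {LD : Lev D}

/-- [Mk-d] the Shapiro-Mackey square, degrees 0, 1, 2:
`ev_g ∘ Res_f = Res_{c_g} ∘ Shapiro` as maps `H^i(G, CoInd σ) → H^i(D_g, σ ∘ c_g)`. -/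
theorem mackey_square (hf : Lev.Cont LD L f) (g : G) :
    (mackeyEv U σ f LD g).H0map ∘ₗ (PairHom.res (coind U.subtype σ) f hf).H0map
        = (PairHom.res σ (mackeyHom U f g) (mackeyHom_cont U f hf g)).H0map ∘ₗ
          (shapiro U.subtype σ (L.cont_comap _)).H0map ∧
    (mackeyEv U σ f LD g).H1map ∘ₗ (PairHom.res (coind U.subtype σ) f hf).H1map
        = (PairHom.res σ (mackeyHom U f g) (mackeyHom_cont U f hf g)).H1map ∘ₗ
          (shapiro U.subtype σ (L.cont_comap _)).H1map ∧
    (mackeyEv U σ f LD g).H2map ∘ₗ (PairHom.res (coind U.subtype σ) f hf).H2map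
        = (PairHom.res σ (mackeyHom U f g) (mackeyHom_cont U f hf g)).H2map ∘ₗ
          (shapiro U.subtype σ (L.cont_comap _)).H2map := by
  simp only [← PairHom.H0map_comp, ← PairHom.H1map_comp, ← PairHom.H2map_comp]
  obtain ⟨h0, h1, h2⟩ := PairHom.map_eq_of_conj
    ((mackeyEv U σ f LD g).comp (PairHom.res (coind U.subtype σ) f hf))
    ((PairHom.res σ (mackeyHom U f g) (mackeyHom_cont U f hf g)).comp
      (shapiro U.subtype σ (L.cont_comap _))) g (fun _ => rfl) (fun F => by
        show (F : G → A) 1 = (F : G → A) (g * g⁻¹)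
        rw [mul_inv_cancel])
  exact ⟨h0.symm, h1.symm, h2.symm⟩

end Fermat.Agent.S55

end
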