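import Fermat.Agent.S55.Fc.Mackey.Lin
import Fermat.Agent.S55.Fc.Shapiro

/-! # S55 F-con 7c: Mackey decomposition of cohomology -/

set_option autoImplicit false

noncomputable section

namespace Fermat.Agent.S55

open Representation

variable {k : Type*} [CommRing k] {G D : Type} [Group G] [Group D]
variable {A : Type*} [AddCommGroup A] [Module k A]
variable (U : Subgroup G) (σ : Representation k U A) (f : D →* G)

variable {L : Lev G} {LD : Lev D}

/-- the `D`-module `CoInd_{D_g}^D (σ ∘ c_g)` -/
abbrev mackeyCoind (g : G) : Representation k D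
    (coindV (mackeySub U f g).subtype (σ.comp (mackeyHom U f g))) :=
  coind (mackeySub U f g).subtype (σ.comp (mackeyHom U f g))

variable (LD) in
/-- the isomorphism of Mk-b as a morphism of pairs -/
def mackeyIso (T : Finset G) : PairHom LD LD ((coind U.subtype σ).comp f)
    (piRep fun g : T => mackeyCoind U σ f (g : G)) :=
  PairHom.ofLinear LD (LinearMap.pi fun g : T => mackeyLin U σ f (g : G)) fun d F => by
    ext g : 1
    exact mackeyLin_comm U σ f (g : G) d F

variable (LD) in
/-- Shapiro's morphism for `(D, D_g)` -/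
def mackeyShapiro (g : G) : PairHom LD (LD.sub (mackeySub U f g)) (mackeyCoind U σ f g)
    (σ.comp (mackeyHom U f g)) :=
  shapiro (mackeySub U f g).subtype (σ.comp (mackeyHom U f g)) (LD.cont_comap _)

lemma mackeyEv_eq (T : Finset G) (g : T) :
    mackeyEv U σ f LD (g : G) = (mackeyShapiro U σ f LD (g : G)).comp
      ((PairHom.proj LD (fun g : T => mackeyCoind U σ f (g : G)) g).comp
        (mackeyIso U σ f LD T)) := by
  apply PairHom.ext'
  · rfl
  · ext F
    show (F : G → A) (g : G) = (F : G → A) ((g : G) * f 1)
    rw [map_one, mul_one]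

lemma mackeyIso_bijective {T : Finset G} (hT : IsMackeyReps U f T) :
    Function.Bijective (mackeyIso U σ f LD T).H0map ∧
      Function.Bijective (mackeyIso U σ f LD T).H1map ∧
      Function.Bijective (mackeyIso U σ f LD T).H2map :=
  PairHom.bijective_of_equiv _ Function.bijective_id (fun V hV => ⟨V, hV, le_rfl⟩)
    (mackeyLin_bijective U σ f hT)

/-- [Mk-c] -/
theorem mackey_H0_bijective {T : Finset G} (hT : IsMackeyReps U f T) :
    Function.Bijective (LinearMap.pi fun g : T => (mackeyEv U σ f LD (g : G)).H0map) := by
  have h1 := (mackeyIso_bijective U σ f (LD := LD) hT).1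
  have h2 := pi_H0_bijective LD (fun g : T => mackeyCoind U σ f (g : G))
  have h3 : Function.Bijective (Pi.map fun g : T => (mackeyShapiro U σ f LD (g : G)).H0map) :=
    Function.Bijective.piMap fun g => shapiro_H0_bijective _ _ _
  have := (h3.comp h2).comp h1
  convert this using 1
  funext c g
  show (mackeyEv U σ f LD (g : G)).H0map c = _
  rw [mackeyEv_eq U σ f T g, PairHom.H0map_comp, PairHom.H0map_comp]
  rfl

/-- [Mk-c] -/
theorem mackey_H1_bijective (hU : L.IsOpen U) (hf : Lev.Cont LD L f)
    (hσ : IsDiscrete (L.sub U) σ) {T : Finset G} (hT : IsMackeyReps U f T) :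
    Function.Bijective (LinearMap.pi fun g : T => (mackeyEv U σ f LD (g : G)).H1map) := by
  have h1 := (mackeyIso_bijective U σ f (LD := LD) hT).2.1
  have h2 := pi_H1_bijective LD (fun g : T => mackeyCoind U σ f (g : G))
  have h3 : Function.Bijective (Pi.map fun g : T => (mackeyShapiro U σ f LD (g : G)).H1map) :=
    Function.Bijective.piMap fun g =>
      shapiro_H1_bijective (mackeySub U f (g : G)).subtype _ (Subgroup.subtype_injective _)
        (by rw [Subgroup.range_subtype]; exact mackeySub_isOpen U f hU hf g)
        (LD.induced_comap _) (hσ.comp (mackeyHom_cont U f hf g))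
  have := (h3.comp h2).comp h1
  convert this using 1
  funext c g
  show (mackeyEv U σ f LD (g : G)).H1map c = _
  rw [mackeyEv_eq U σ f T g, PairHom.H1map_comp, PairHom.H1map_comp]
  rfl

/-- [Mk-c] -/
theorem mackey_H2_bijective (hU : L.IsOpen U) (hf : Lev.Cont LD L f)
    (hσ : IsDiscrete (L.sub U) σ) {T : Finset G} (hT : IsMackeyReps U f T) :
    Function.Bijective (LinearMap.pi fun g : T => (mackeyEv U σ f LD (g : G)).H2map) := by
  have h1 := (mackeyIso_bijective U σ f (LD := LD) hT).2.2
  have h2 := pi_H2_bijective LD (fun g : T => mackeyCoind U σ f (g : G))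
  have h3 : Function.Bijective (Pi.map fun g : T => (mackeyShapiro U σ f LD (g : G)).H2map) :=
    Function.Bijective.piMap fun g =>
      shapiro_H2_bijective (mackeySub U f (g : G)).subtype _ (Subgroup.subtype_injective _)
        (by rw [Subgroup.range_subtype]; exact mackeySub_isOpen U f hU hf g)
        (LD.induced_comap _) (hσ.comp (mackeyHom_cont U f hf g))
  have := (h3.comp h2).comp h1
  convert this using 1
  funext c g
  show (mackeyEv U σ f LD (g : G)).H2map c = _
  rw [mackeyEv_eq U σ f T g, PairHom.H2map_comp, PairHom.H2map_comp]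
  rfl

end Fermat.Agent.S55

end
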