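import Fermat.Agent.S55.Fc.CoInd

/-!
# S55 F-con 7: Mackey decomposition and the Shapiro-Mackey square

`U ≤ G` open, `σ` a discrete `U`-module, `f : D →* G` continuous (think: `D` a local Galois group).
For `g : G` put `D_g := {d | g f(d) g⁻¹ ∈ U}` and `c_g : D_g →* U`, `d ↦ g f(d) g⁻¹`.
Then `H^i(D, Res_f CoInd_U^G σ) ≅ ∏_{g ∈ U \ G / f(D)} H^i(D_g, σ ∘ c_g)` via evaluation at `g`, and under
Shapiro's isomorphism localisation on `CoInd` corresponds to restriction along the `c_g`.
-/

set_option autoImplicit false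

noncomputable section

namespace Fermat.Agent.S55

open Representation

variable {k : Type*} [CommRing k] {G D : Type} [Group G] [Group D]
variable {A : Type*} [AddCommGroup A] [Module k A]
variable (U : Subgroup G) (σ : Representation k U A) (f : D →* G)

/-- `D_g = {d | g f(d) g⁻¹ ∈ U}` -/
def mackeySub (g : G) : Subgroup D := U.comap ((MulAut.conj g).toMonoidHom.comp f)

lemma mem_mackeySub {g : G} {d : D} : d ∈ mackeySub U f g ↔ g * f d * g⁻¹ ∈ U := Iff.rfl

/-- `c_g : D_g →* U`, `d ↦ g f(d) g⁻¹` -/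
def mackeyHom (g : G) : mackeySub U f g →* U :=
  ((MulAut.conj g).toMonoidHom.comp f).subgroupComap U

@[simp] lemma mackeyHom_coe (g : G) (d : mackeySub U f g) :
    (mackeyHom U f g d : G) = g * f d * g⁻¹ := rfl

variable {L : Lev G} {LD : Lev D}

/-- [Mk-a] -/
lemma mackeyHom_cont (hf : Lev.Cont LD L f) (g : G) :
    Lev.Cont (LD.sub (mackeySub U f g)) (L.sub U) (mackeyHom U f g) := by
  rintro _ ⟨V, hV, rfl⟩
  obtain ⟨W, hW, hWV⟩ := ((Lev.cont_conj L g).comp hf) V hV
  exact ⟨W.comap (mackeySub U f g).subtype, ⟨W, hW, rfl⟩, fun d hd => hWV hd⟩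

/-- [Mk-a] -/
lemma mackeySub_isOpen (hU : L.IsOpen U) (hf : Lev.Cont LD L f) (g : G) :
    LD.IsOpen (mackeySub U f g) :=
  hU.comap ((Lev.cont_conj L g).comp hf)

/-- `T` is a set of representatives of the double cosets `U \ G / f(D)` -/
def IsMackeyReps (T : Finset G) : Prop :=
  ∀ x : G, ∃! g, g ∈ T ∧ ∃ u ∈ U, ∃ d : D, x = u * g * f d

/-- the set of double cosets `U \ G / K` is finite if `U` has finite index -/
lemma finite_doubleCoset_of_finiteIndex (K : Subgroup G) [U.FiniteIndex] :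
    Finite (DoubleCoset.Quotient (U : Set G) (K : Set G)) := by
  have : Finite (Quotient (QuotientGroup.rightRel U)) :=
    Finite.of_equiv _ (QuotientGroup.quotientRightRelEquivQuotientLeftRel U).symm
  refine Finite.of_surjective (Quotient.map' (s₁ := QuotientGroup.rightRel U)
    (s₂ := DoubleCoset.setoid (U : Set G) (K : Set G)) id ?_) ?_
  · intro a b h
    rw [QuotientGroup.rightRel_apply] at h
    exact DoubleCoset.rel_iff.2 ⟨b * a⁻¹, h, 1, K.one_mem, by simp⟩
  · intro q
    induction q using Quotient.inductionOn' with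
    | h a => exact ⟨Quotient.mk'' a, rfl⟩

/-- [Mk-a] -/
lemma exists_isMackeyReps [U.FiniteIndex] : ∃ T : Finset G, IsMackeyReps U f T := by
  classical
  have := finite_doubleCoset_of_finiteIndex U f.range
  have : Fintype (DoubleCoset.Quotient (U : Set G) (f.range : Set G)) := Fintype.ofFinite _
  refine ⟨Finset.univ.image fun q : DoubleCoset.Quotient (U : Set G) (f.range : Set G) => q.out,
    fun x => ⟨(DoubleCoset.mk U f.range x).out, ⟨Finset.mem_image_of_mem _ (Finset.mem_univ _), ?_⟩,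
      ?_⟩⟩
  · have h := (DoubleCoset.eq U f.range (DoubleCoset.mk U f.range x).out x).1
      (DoubleCoset.out_eq' _ _ _)
    obtain ⟨u, hu, _, ⟨d, rfl⟩, hx⟩ := h
    exact ⟨u, hu, d, hx⟩
  · rintro g ⟨hg, u, hu, d, hx⟩
    obtain ⟨q, -, rfl⟩ := Finset.mem_image.1 hg
    have : DoubleCoset.mk U f.range q.out = DoubleCoset.mk U f.range x :=
      (DoubleCoset.eq U f.range _ _).2 ⟨u, hu, f d, ⟨d, rfl⟩, hx⟩
    rw [← this, DoubleCoset.out_eq']

/-- [Mk-a] orbit counting: `∑_g [D : D_g] = [G : U]` -/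
lemma sum_index_mackeySub [U.FiniteIndex] {T : Finset G} (hT : IsMackeyReps U f T) :
    ∑ g ∈ T, (mackeySub U f g).index = U.index := by
  classical
  let _ : MulAction D (G ⧸ U) := MulAction.compHom (G ⧸ U) f
  have hsmul : ∀ (d : D) (y : G), d • (y : G ⧸ U) = ((f d * y : G) : G ⧸ U) := fun _ _ => rfl
  have hstab : ∀ g : G, MulAction.stabilizer D ((g⁻¹ : G) : G ⧸ U) = mackeySub U f g := by
    intro g
    ext d
    rw [MulAction.mem_stabilizer_iff, hsmul, QuotientGroup.eq, mem_mackeySub, ← inv_mem_iff]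
    simp [mul_assoc]
  have horb : ∀ (y g : G), (∃ u ∈ U, ∃ d : D, y⁻¹ = u * g * f d) ↔
      (y : G ⧸ U) ∈ MulAction.orbit D ((g⁻¹ : G) : G ⧸ U) := by
    intro y g
    constructor
    · rintro ⟨u, hu, d, h⟩
      refine ⟨d⁻¹, ?_⟩
      change d⁻¹ • ((g⁻¹ : G) : G ⧸ U) = _
      rw [hsmul, QuotientGroup.eq]
      have hy : y = (f d)⁻¹ * g⁻¹ * u⁻¹ := by
        rw [← inv_inv y, h]; simp [mul_assoc]
      rw [hy]
      simpa [mul_assoc] using hu
    · rintro ⟨d, h⟩
      change d • ((g⁻¹ : G) : G ⧸ U) = _ at h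
      rw [hsmul, eq_comm, QuotientGroup.eq] at h
      exact ⟨_, h, d⁻¹, by simp [mul_assoc]⟩
  have hpart : ∀ x : G ⧸ U, ∃! g, g ∈ T ∧ x ∈ MulAction.orbit D ((g⁻¹ : G) : G ⧸ U) := by
    intro x
    induction x using QuotientGroup.induction_on with
    | H y =>
      simp only [← horb]
      exact hT y⁻¹
  choose c hc hc' using hpart
  have : Fintype (G ⧸ U) := Fintype.ofFinite _
  have hfib : ∀ g ∈ T, (mackeySub U f g).index = (Finset.univ.filter fun x => c x = g).card := by
    intro g hg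
    rw [← hstab, MulAction.index_stabilizer, ← Set.ncard_coe_finset]
    congr 1
    ext x
    simp only [Finset.coe_filter, Finset.mem_univ, true_and, Set.mem_ofPred_eq]
    constructor
    · intro hx
      exact (hc' x g ⟨hg, hx⟩).symm
    · rintro rfl
      exact (hc x).2
  rw [Finset.sum_congr rfl hfib, ← Finset.card_eq_sum_card_fiberwise (fun x _ => (hc x).1),
    Finset.card_univ, Subgroup.index, Nat.card_eq_fintype_card]

variable (LD) in
/-- evaluation at `g`: `(D, Res_f CoInd σ) → (D_g, σ ∘ c_g)` -/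
def mackeyEv (g : G) : PairHom LD (LD.sub (mackeySub U f g)) ((coind U.subtype σ).comp f)
    (σ.comp (mackeyHom U f g)) where
  f := (mackeySub U f g).subtype
  φ := coindEv U.subtype σ g
  cont := LD.cont_comap _
  compat := fun d F => by
    have := F.2 (mackeyHom U f g d) g
    have h2 : U.subtype (mackeyHom U f g d) * g = g * f d := by simp
    rw [h2] at this
    exact this

/-- [Mk-b] Mackey decomposition on the level of modules:
`F ↦ (g ↦ (d ↦ F (g * f d)))` is an isomorphism of `D`-modules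
`Res_f CoInd_U^G σ ≅ ∏_{g ∈ T} CoInd_{D_g}^D (σ ∘ c_g)`. -/
def mackeyLin (g : G) : coindV U.subtype σ →ₗ[k]
    coindV (mackeySub U f g).subtype (σ.comp (mackeyHom U f g)) where
  toFun F := ⟨fun d => (F : G → A) (g * f d), fun d' d => by
    have := F.2 (mackeyHom U f g d') (g * f d)
    simpa [mul_assoc] using this⟩
  map_add' _ _ := rfl
  map_smul' _ _ := rfl

/-- [Mk-b] -/
lemma mackeyLin_comm (g : G) (d : D) (F : coindV U.subtype σ) :
    mackeyLin U σ f g (coind U.subtype σ (f d) F)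
      = coind (mackeySub U f g).subtype (σ.comp (mackeyHom U f g)) d (mackeyLin U σ f g F) := by
  ext x
  change (F : G → A) (g * f x * f d) = (F : G → A) (g * f (x * d))
  rw [map_mul, mul_assoc]

end Fermat.Agent.S55

end
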