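import Fermat.Agent.S55.Fc.Mackey.Defs

/-! # S55 F-con 7b: Mackey decomposition of modules -/

set_option autoImplicit false

noncomputable section

namespace Fermat.Agent.S55

open Representation

variable {k : Type*} [CommRing k] {G D : Type} [Group G] [Group D]
variable {A : Type*} [AddCommGroup A] [Module k A]
variable (U : Subgroup G) (σ : Representation k U A) (f : D →* G)

variable {L : Lev G} {LD : Lev D}

/-- independence of the decomposition `x = u g f(d)`. -/
lemma mackeyLin_aux (g : G) (φ : coindV (mackeySub U f g).subtype (σ.comp (mackeyHom U f g)))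
    (u u' : U) (d d' : D) (h : (u : G) * g * f d = (u' : G) * g * f d') :
    σ u ((φ : D → A) d) = σ u' ((φ : D → A) d') := by
  -- `e = d * d'⁻¹ ∈ D_g`, `c_g e = u⁻¹ u'`
  have hc : g * f (d * d'⁻¹) * g⁻¹ = ((u⁻¹ * u' : U) : G) := by
    have h1 : g * f d = (u : G)⁻¹ * ((u' : G) * g * f d') := by
      rw [← h]; group
    rw [map_mul, map_inv, ← mul_assoc, h1]
    push_cast
    group
  have he : d * d'⁻¹ ∈ mackeySub U f g := by
    rw [mem_mackeySub, hc]
    exact (u⁻¹ * u').2
  have h2 := φ.2 ⟨d * d'⁻¹, he⟩ d'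
  have h3 : mackeyHom U f g ⟨d * d'⁻¹, he⟩ = u⁻¹ * u' := Subtype.ext hc
  simp only [Subgroup.subtype_apply, inv_mul_cancel_right, MonoidHom.coe_comp,
    Function.comp_apply, h3] at h2
  rw [h2, ← Module.End.mul_apply, ← map_mul, mul_inv_cancel_left]

/-- [Mk-b] -/
lemma mackeyLin_bijective {T : Finset G} (hT : IsMackeyReps U f T) :
    Function.Bijective (LinearMap.pi fun g : T => mackeyLin U σ f (g : G)) := by
  classical
  constructor
  · rw [injective_iff_map_eq_zero]
    intro F hF
    ext x
    obtain ⟨g, ⟨hg, u, hu, d, rfl⟩, -⟩ := hT x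
    have h1 : (mackeyLin U σ f g F : D → A) d = 0 := by
      have := congrFun hF ⟨g, hg⟩
      simp only [LinearMap.pi_apply, Pi.zero_apply] at this
      rw [this]
      rfl
    have h2 := F.2 ⟨u, hu⟩ (g * f d)
    simp only [Subgroup.subtype_apply] at h2
    rw [mul_assoc, h2]
    change σ ⟨u, hu⟩ ((mackeyLin U σ f g F : D → A) d) = 0
    rw [h1, map_zero]
  · intro φ
    choose gx hgx huniq using fun x => hT x
    choose hgT ux hux dx hx using hgx
    set F : G → A := fun x => σ ⟨ux x, hux x⟩ ((φ ⟨gx x, hgT x⟩ : D → A) (dx x)) with hF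
    have key : ∀ (g : G) (hg : g ∈ T) (u : U) (d : D),
        F ((u : G) * g * f d) = σ u ((φ ⟨g, hg⟩ : D → A) d) := by
      intro g hg u d
      obtain ⟨x, hxx⟩ : ∃ x, x = (u : G) * g * f d := ⟨_, rfl⟩
      rw [← hxx]
      have hgg : g = gx x := huniq x g ⟨hg, u, u.2, d, hxx⟩
      subst hgg
      exact mackeyLin_aux U σ f (gx x) (φ ⟨gx x, hgT x⟩) ⟨ux x, hux x⟩ u (dx x) d
        ((hx x).symm.trans hxx)
    have hmem : F ∈ coindV U.subtype σ := by
      intro h x
      have h1 : U.subtype h * x = ((h * ⟨ux x, hux x⟩ : U) : G) * gx x * f (dx x) := by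
        conv_lhs => rw [hx x]
        simp [mul_assoc]
      rw [h1, key _ (hgT x), map_mul]
      rfl
    refine ⟨⟨F, hmem⟩, ?_⟩
    funext g
    ext d
    have h1 := key g g.2 1 d
    simp only [OneMemClass.coe_one, one_mul, map_one, Module.End.one_apply] at h1
    exact h1

end Fermat.Agent.S55

end
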